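/-
S52 / Program E, package (I-a): the 3-division polynomial of a family `y² = x³ + a x + b` over `K[n]`
whose discriminant is `c · D⁵` with `D` squarefree, coprime to `a`, has no root in `K[n]`.
Mathlib only.  (helper34)
-/
import Mathlib

set_option autoImplicit false

namespace Fermat.Agent.S52.H34

open Polynomial

/-- The key identity: modulo the 3-division polynomial `ψ₃ = 3x⁴ + 6ax² + 12bx − a²`,
`(3x² + a)³ (x² + 3a) = 16 (4a³ + 27b²) x²`. -/
theorem threeDivision_identity {R : Type*} [CommRing R] (x a b : R) :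
    (3 * x ^ 2 + a) ^ 3 * (x ^ 2 + 3 * a) - 16 * (4 * a ^ 3 + 27 * b ^ 2) * x ^ 2
      = (3 * x ^ 4 + 6 * a * x ^ 2 + 12 * b * x - a ^ 2)
          * (9 * x ^ 4 + 18 * a * x ^ 2 - 36 * b * x - 3 * a ^ 2) := by
  ring

/-- Degree bound for a root of the 3-division polynomial. -/
theorem natDegree_le_ten_of_threeDivision {K : Type*} [Field K] [CharZero K] (a b x : K[X])
    (ha : a.natDegree ≤ 20) (hb : b.natDegree ≤ 30)
    (h : 3 * x ^ 4 + 6 * a * x ^ 2 + 12 * b * x - a ^ 2 = 0) : x.natDegree ≤ 10 := by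
  by_contra hd
  push Not at hd
  have hx0 : x ≠ 0 := by
    rintro rfl
    simp at hd
  have h3 : (3 : K[X]) ≠ 0 := by
    have : (3 : K[X]) = C (3 : K) := (map_ofNat C _).symm
    rw [this]
    exact C_ne_zero.mpr (by norm_num)
  have hlhs : (3 * x ^ 4 : K[X]).natDegree = 4 * x.natDegree := by
    have h3' : (3 : K[X]) = C (3 : K) := (map_ofNat C _).symm
    rw [h3', natDegree_C_mul (by norm_num : (3 : K) ≠ 0), natDegree_pow]
  have heq : 3 * x ^ 4 = a ^ 2 - 6 * a * x ^ 2 - 12 * b * x := by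
    linear_combination h
  have hrhs : (a ^ 2 - 6 * a * x ^ 2 - 12 * b * x : K[X]).natDegree < 4 * x.natDegree := by
    have h1 : (a ^ 2 : K[X]).natDegree ≤ 40 := by
      calc (a ^ 2 : K[X]).natDegree ≤ 2 * a.natDegree := natDegree_pow_le
        _ ≤ 40 := by omega
    have h6 : ((6 : K[X]) * a * x ^ 2).natDegree ≤ 20 + 2 * x.natDegree := by
      have h6' : (6 : K[X]) = C (6 : K) := (map_ofNat C _).symm
      calc ((6 : K[X]) * a * x ^ 2).natDegree
          ≤ ((6 : K[X]) * a).natDegree + (x ^ 2).natDegree := natDegree_mul_le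
        _ ≤ a.natDegree + 2 * x.natDegree := by
            gcongr
            · rw [h6']; exact natDegree_C_mul_le _ _
            · exact natDegree_pow_le
        _ ≤ 20 + 2 * x.natDegree := by omega
    have h12 : ((12 : K[X]) * b * x).natDegree ≤ 30 + x.natDegree := by
      have h12' : (12 : K[X]) = C (12 : K) := (map_ofNat C _).symm
      calc ((12 : K[X]) * b * x).natDegree
          ≤ ((12 : K[X]) * b).natDegree + x.natDegree := natDegree_mul_le
        _ ≤ b.natDegree + x.natDegree := by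
            gcongr
            rw [h12']; exact natDegree_C_mul_le _ _
        _ ≤ 30 + x.natDegree := by omega
    calc (a ^ 2 - 6 * a * x ^ 2 - 12 * b * x : K[X]).natDegree
        ≤ max (a ^ 2 - 6 * a * x ^ 2 : K[X]).natDegree ((12 : K[X]) * b * x).natDegree :=
          natDegree_sub_le _ _
      _ ≤ max (max (a ^ 2 : K[X]).natDegree ((6 : K[X]) * a * x ^ 2).natDegree)
            ((12 : K[X]) * b * x).natDegree := by
          gcongr
          exact natDegree_sub_le _ _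
      _ < 4 * x.natDegree := by
          simp only [max_lt_iff]
          refine ⟨⟨?_, ?_⟩, ?_⟩ <;> omega
  rw [← heq, hlhs] at hrhs
  exact lt_irrefl _ hrhs

/-- **(I-a)**: no root of the 3-division polynomial in `K[n]` for a family with discriminant `c · D⁵`,
`D` squarefree of degree `≥ 5`, coprime to `a`, `deg a ≤ 20`, `deg b ≤ 30`. -/
theorem no_root_threeDivision {K : Type*} [Field K] [CharZero K] (a b D x : K[X]) (c : K)
    (hc : c ≠ 0) (hdisc : 4 * a ^ 3 + 27 * b ^ 2 = C c * D ^ 5) (hD : Squarefree D)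
    (hcop : IsCoprime a D) (ha : a.natDegree ≤ 20) (hb : b.natDegree ≤ 30)
    (hDdeg : 5 ≤ D.natDegree) :
    3 * x ^ 4 + 6 * a * x ^ 2 + 12 * b * x - a ^ 2 ≠ 0 := by
  intro h
  have hD0 : D ≠ 0 := by
    rintro rfl
    simp at hDdeg
  -- the basic relation
  have hrel : (3 * x ^ 2 + a) ^ 3 * (x ^ 2 + 3 * a) = C (16 * c) * D ^ 5 * x ^ 2 := by
    have := threeDivision_identity x a b
    rw [h, zero_mul, hdisc] at this
    have h16 : (C (16 * c) : K[X]) = 16 * C c := by
      rw [C_mul]; congr 1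
    rw [h16]
    linear_combination this
  have h16c : IsUnit (C (16 * c) : K[X]) :=
    isUnit_C.mpr (IsUnit.mk0 _ (mul_ne_zero (by norm_num) hc))
  have h8 : IsUnit (8 : K[X]) := by
    have : (8 : K[X]) = C (8 : K) := (map_ofNat C _).symm
    rw [this]
    exact isUnit_C.mpr (IsUnit.mk0 _ (by norm_num))
  -- θ is coprime to D
  have hθD : IsCoprime (3 * x ^ 2 + a) D := by
    refine isCoprime_of_prime_dvd (fun hh => hD0 hh.2) ?_
    intro π hπ hπθ hπD
    have hπa : ¬ π ∣ a := fun hπa => hπ.not_isUnit (hcop.isUnit_of_dvd' hπa hπD)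
    have hπw : ¬ π ∣ x ^ 2 + 3 * a := by
      intro hw
      have : π ∣ 8 * a := by
        have e : 8 * a = 3 * (x ^ 2 + 3 * a) - (3 * x ^ 2 + a) := by ring
        rw [e]
        exact dvd_sub (Dvd.dvd.mul_left hw _) hπθ
      exact hπa ((h8.dvd_mul_left).mp this)
    have hπx : ¬ π ∣ x := by
      intro hx
      have : π ∣ a := by
        have e : a = (3 * x ^ 2 + a) - 3 * x ^ 2 := by ring
        rw [e]
        exact dvd_sub hπθ (Dvd.dvd.mul_left (dvd_pow hx two_ne_zero) _)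
      exact hπa this
    obtain ⟨D', rfl⟩ := hπD
    have hπD' : ¬ π ∣ D' := by
      intro hd
      obtain ⟨D'', rfl⟩ := hd
      have : IsUnit π := hD π ⟨D'', by ring⟩
      exact hπ.not_isUnit this
    obtain ⟨θ₁, hθ₁⟩ := hπθ
    have hπ0 : π ≠ 0 := hπ.ne_zero
    -- θ₁³ w = π² E
    have e1 : θ₁ ^ 3 * (x ^ 2 + 3 * a) = π ^ 2 * (C (16 * c) * D' ^ 5 * x ^ 2) := by
      have hπ3 : π ^ 3 ≠ 0 := pow_ne_zero _ hπ0
      apply mul_left_cancel₀ hπ3
      calc π ^ 3 * (θ₁ ^ 3 * (x ^ 2 + 3 * a)) = (π * θ₁) ^ 3 * (x ^ 2 + 3 * a) := by ring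
        _ = C (16 * c) * (π * D') ^ 5 * x ^ 2 := by rw [← hθ₁, hrel]
        _ = π ^ 3 * (π ^ 2 * (C (16 * c) * D' ^ 5 * x ^ 2)) := by ring
    have hπθ₁ : π ∣ θ₁ := by
      have : π ∣ θ₁ ^ 3 * (x ^ 2 + 3 * a) := by
        rw [e1]; exact Dvd.dvd.mul_right (dvd_pow_self π two_ne_zero) _
      rcases hπ.dvd_or_dvd this with h' | h'
      · exact hπ.dvd_of_dvd_pow h'
      · exact absurd h' hπw
    obtain ⟨θ₂, rfl⟩ := hπθ₁
    have e2 : π * (θ₂ ^ 3 * (x ^ 2 + 3 * a)) = C (16 * c) * D' ^ 5 * x ^ 2 := by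
      have hπ2 : π ^ 2 ≠ 0 := pow_ne_zero _ hπ0
      apply mul_left_cancel₀ hπ2
      calc π ^ 2 * (π * (θ₂ ^ 3 * (x ^ 2 + 3 * a))) = (π * θ₂) ^ 3 * (x ^ 2 + 3 * a) := by ring
        _ = π ^ 2 * (C (16 * c) * D' ^ 5 * x ^ 2) := e1
    have hdvd : π ∣ C (16 * c) * D' ^ 5 * x ^ 2 := ⟨_, e2.symm⟩
    rcases hπ.dvd_or_dvd hdvd with h' | h'
    · rcases hπ.dvd_or_dvd h' with h'' | h''
      · exact hπ.not_isUnit (isUnit_of_dvd_unit h'' h16c)
      · exact hπD' (hπ.dvd_of_dvd_pow h'')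
    · exact hπx (hπ.dvd_of_dvd_pow h')
  -- D⁵ ∣ x² + 3a
  have hdvd : D ^ 5 ∣ x ^ 2 + 3 * a := by
    have hcop' : IsCoprime (D ^ 5) ((3 * x ^ 2 + a) ^ 3) := (hθD.symm.pow : _)
    refine hcop'.dvd_of_dvd_mul_left ?_
    rw [hrel]
    exact ⟨C (16 * c) * x ^ 2, by ring⟩
  have hx10 := natDegree_le_ten_of_threeDivision a b x ha hb h
  -- hence x² + 3a = 0
  have hw0 : x ^ 2 + 3 * a = 0 := by
    by_contra hw
    have h1 : (D ^ 5).natDegree ≤ (x ^ 2 + 3 * a).natDegree := natDegree_le_of_dvd hdvd hw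
    rw [natDegree_pow] at h1
    have h3' : (3 : K[X]) = C (3 : K) := (map_ofNat C _).symm
    have h2 : (x ^ 2 + 3 * a).natDegree ≤ 20 := by
      calc (x ^ 2 + 3 * a).natDegree ≤ max (x ^ 2).natDegree (3 * a).natDegree :=
            natDegree_add_le _ _
        _ ≤ 20 := by
            apply max_le
            · calc (x ^ 2).natDegree ≤ 2 * x.natDegree := natDegree_pow_le
                _ ≤ 20 := by omega
            · rw [h3']
              exact (natDegree_C_mul_le _ _).trans ha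
    omega
  -- then x = 0 and a = 0
  have hx0 : x = 0 := by
    rw [hw0, mul_zero] at hrel
    have := hrel.symm
    rcases mul_eq_zero.mp this with h' | h'
    · rcases mul_eq_zero.mp h' with h'' | h''
      · exact absurd h'' h16c.ne_zero
      · exact absurd (pow_eq_zero_iff (by norm_num) |>.mp h'') hD0
    · exact pow_eq_zero_iff (by norm_num) |>.mp h'
  have ha0 : a = 0 := by
    rw [hx0] at hw0
    have h3 : (3 : K[X]) ≠ 0 := by
      have : (3 : K[X]) = C (3 : K) := (map_ofNat C _).symm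
      rw [this]
      exact C_ne_zero.mpr (by norm_num)
    simpa [h3] using hw0
  rw [ha0] at hcop
  have hu : IsUnit D := isCoprime_zero_left.mp hcop
  have := natDegree_eq_zero_of_isUnit hu
  omega

/-- The same statement for `F(y) = y⁴ + 18 a y² + 108 b y − 27 a²` (`y = 3x`), the shape used by the
Hilbert-irreducibility step. -/
theorem no_root_quartic {K : Type*} [Field K] [CharZero K] (a b D y : K[X]) (c : K)
    (hc : c ≠ 0) (hdisc : 4 * a ^ 3 + 27 * b ^ 2 = C c * D ^ 5) (hD : Squarefree D)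
    (hcop : IsCoprime a D) (ha : a.natDegree ≤ 20) (hb : b.natDegree ≤ 30)
    (hDdeg : 5 ≤ D.natDegree) :
    y ^ 4 + 18 * a * y ^ 2 + 108 * b * y - 27 * a ^ 2 ≠ 0 := by
  intro h
  refine no_root_threeDivision a b D (C (1 / 3 : K) * y) c hc hdisc hD hcop ha hb hDdeg ?_
  have h3 : (C (1 / 3 : K) : K[X]) * 3 = 1 := by
    have : (3 : K[X]) = C (3 : K) := (map_ofNat C _).symm
    rw [this, ← C_mul]
    norm_num
  have e : 3 * (C (1 / 3 : K) * y) ^ 4 + 6 * a * (C (1 / 3 : K) * y) ^ 2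
        + 12 * b * (C (1 / 3 : K) * y) - a ^ 2
      = (C (1 / 3 : K)) ^ 3 * (y ^ 4 + 18 * a * y ^ 2 + 108 * b * y - 27 * a ^ 2) := by
    linear_combination (y ^ 4 * (C (1 / 3 : K)) ^ 3 - 6 * a * (C (1 / 3 : K)) ^ 2 * y ^ 2
      - 12 * b * (C (1 / 3 : K)) * y * (1 + 3 * C (1 / 3 : K))
      + a ^ 2 * (1 + 3 * C (1 / 3 : K) + 9 * (C (1 / 3 : K)) ^ 2)) * h3
  rw [e, h, mul_zero]

end Fermat.Agent.S52.H34
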