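/-
S52 / Program E, generic leaf for (Msig): the height `max (deg num) (deg denom)` of a rational function is
multiplicative under composition (any `K`-algebra endomorphism of `K(X)`), via Mathlib's
`RatFunc.finrank_eq_max_natDegree` and the tower law.  Mathlib only.  (helper34)
-/
import Mathlib

set_option autoImplicit false

namespace Fermat.Agent.S52.H34

open IntermediateField

variable {K : Type*} [Field K]

/-- Height of a rational function: the maximum of the degrees of numerator and denominator. -/
noncomputable def ratHeight (f : RatFunc K) : ℕ := max f.num.natDegree f.denom.natDegree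

theorem ratHeight_eq_finrank (f : RatFunc K) :
    ratHeight f = Module.finrank (IntermediateField.adjoin K {f}) (RatFunc K) :=
  (RatFunc.finrank_eq_max_natDegree f).symm

/-- **Multiplicativity of the height under composition**: for every `K`-algebra endomorphism `σ` of
`K(X)` (i.e. substitution `X ↦ σ X`), `h(σ f) = h(f) · h(σ X)`. -/
theorem ratHeight_algHom (σ : RatFunc K →ₐ[K] RatFunc K) (f : RatFunc K) :
    ratHeight (σ f) = ratHeight f * ratHeight (σ RatFunc.X) := by
  rw [ratHeight_eq_finrank, ratHeight_eq_finrank, ratHeight_eq_finrank]
  have h1 : IntermediateField.adjoin K {σ f} = (IntermediateField.adjoin K {f}).map σ := by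
    rw [IntermediateField.adjoin_map, Set.image_singleton]
  have h2 : IntermediateField.adjoin K {σ RatFunc.X}
      = (⊤ : IntermediateField K (RatFunc K)).map σ := by
    rw [← RatFunc.adjoin_X, IntermediateField.adjoin_map, Set.image_singleton]
  have hle : IntermediateField.adjoin K {σ f} ≤ IntermediateField.adjoin K {σ RatFunc.X} := by
    rw [h1, h2]
    exact IntermediateField.map_mono σ le_top
  rw [← IntermediateField.relfinrank_mul_finrank_top hle]
  congr 1
  rw [h1, h2, IntermediateField.relfinrank_map_map, IntermediateField.relfinrank_top_right]

theorem ratHeight_C (c : K) : ratHeight (RatFunc.C c) = 0 := by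
  simp [ratHeight]

theorem ratHeight_X : ratHeight (RatFunc.X : RatFunc K) = 1 := by
  simp [ratHeight]

end Fermat.Agent.S52.H34
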